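import Mathlib

/-!
# S16 / BRIDGE (helper67): the discriminant form of an even lattice of level `p`

`A B : Matrix ι ι ℤ` symmetric with even diagonal and `A * B = p • 1`.
* `qf B z = zᵀ B z`, `bf B y z = yᵀ B z`, `hf B z = zᵀ B z / 2`
* `Disc A = ℤ^ι ⧸ A ℤ^ι`, the discriminant group; finite, killed by `p`, of cardinality `|det A|`
* `discQ`, `discB` : the quadratic form / bilinear form with values in `ZMod p`.
-/

namespace Fermat.Agent.S16.H67

open Matrix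

section Alg

variable {ι : Type*} [Fintype ι]

/-- the integral quadratic form `zᵀ B z`. -/
def qf (B : Matrix ι ι ℤ) (z : ι → ℤ) : ℤ := z ⬝ᵥ B *ᵥ z

/-- the integral bilinear form `yᵀ B z`. -/
def bf (B : Matrix ι ι ℤ) (y z : ι → ℤ) : ℤ := y ⬝ᵥ B *ᵥ z

variable {A B : Matrix ι ι ℤ}

lemma qf_eq_bf (B : Matrix ι ι ℤ) (z : ι → ℤ) : qf B z = bf B z z := rfl

lemma bf_add_left (B : Matrix ι ι ℤ) (y y' z : ι → ℤ) :
    bf B (y + y') z = bf B y z + bf B y' z := by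
  simp [bf, add_dotProduct]

lemma bf_add_right (B : Matrix ι ι ℤ) (y z z' : ι → ℤ) :
    bf B y (z + z') = bf B y z + bf B y z' := by
  simp [bf, mulVec_add, dotProduct_add]

lemma bf_neg_left (B : Matrix ι ι ℤ) (y z : ι → ℤ) : bf B (-y) z = - bf B y z := by
  simp [bf]

lemma bf_neg_right (B : Matrix ι ι ℤ) (y z : ι → ℤ) : bf B y (-z) = - bf B y z := by
  simp [bf, mulVec_neg]

lemma bf_zero_left (B : Matrix ι ι ℤ) (z : ι → ℤ) : bf B 0 z = 0 := by
  simp [bf]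

lemma bf_zero_right (B : Matrix ι ι ℤ) (z : ι → ℤ) : bf B z 0 = 0 := by
  simp [bf]

lemma bf_comm (hB : B.IsSymm) (y z : ι → ℤ) : bf B y z = bf B z y := by
  unfold bf
  rw [dotProduct_mulVec, ← mulVec_transpose, hB.eq, dotProduct_comm]

lemma qf_add (hB : B.IsSymm) (y z : ι → ℤ) :
    qf B (y + z) = qf B y + qf B z + 2 * bf B y z := by
  rw [qf_eq_bf, bf_add_left, bf_add_right, bf_add_right, bf_comm hB z y, qf_eq_bf, qf_eq_bf]
  ring

lemma qf_neg (B : Matrix ι ι ℤ) (z : ι → ℤ) : qf B (-z) = qf B z := by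
  rw [qf_eq_bf, bf_neg_left, bf_neg_right, neg_neg, qf_eq_bf]

lemma qf_zero (B : Matrix ι ι ℤ) : qf B 0 = 0 := bf_zero_left B 0

variable [DecidableEq ι]

lemma bf_mulVec_left {p : ℤ} (hA : A.IsSymm) (hAB : A * B = p • (1 : Matrix ι ι ℤ))
    (x z : ι → ℤ) : bf B (A *ᵥ x) z = p * (x ⬝ᵥ z) := by
  unfold bf
  rw [dotProduct_comm, dotProduct_mulVec, ← mulVec_transpose, hA.eq, mulVec_mulVec, hAB,
    dotProduct_comm, smul_mulVec, one_mulVec, dotProduct_smul, smul_eq_mul]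

lemma bf_mulVec_right {p : ℤ} (hA : A.IsSymm) (hB : B.IsSymm)
    (hAB : A * B = p • (1 : Matrix ι ι ℤ))
    (x z : ι → ℤ) : bf B z (A *ᵥ x) = p * (z ⬝ᵥ x) := by
  rw [bf_comm hB, bf_mulVec_left hA hAB, dotProduct_comm]

lemma qf_mulVec {p : ℤ} (hA : A.IsSymm) (hAB : A * B = p • (1 : Matrix ι ι ℤ))
    (x : ι → ℤ) : qf B (A *ᵥ x) = p * qf A x := by
  rw [qf_eq_bf, bf_mulVec_left hA hAB]
  rfl

/-- a symmetric integer matrix with even diagonal has an even quadratic form. -/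
lemma two_dvd_qf (hB : B.IsSymm) (hBe : ∀ i, 2 ∣ B i i) (z : ι → ℤ) : 2 ∣ qf B z := by
  classical
  -- the set of `z` with `2 ∣ qf B z` is an additive subgroup containing the basis vectors
  let H : AddSubgroup (ι → ℤ) :=
    { carrier := {z | 2 ∣ qf B z}
      zero_mem' := by
        change 2 ∣ qf B 0
        rw [qf_zero]; exact dvd_zero _
      add_mem' := by
        intro a b ha hb
        change 2 ∣ qf B a at ha
        change 2 ∣ qf B b at hb
        change 2 ∣ qf B (a + b)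
        rw [qf_add hB]
        exact dvd_add (dvd_add ha hb) (dvd_mul_right _ _)
      neg_mem' := by
        intro a ha
        change 2 ∣ qf B a at ha
        change 2 ∣ qf B (-a)
        rwa [qf_neg] }
  have hsingle : ∀ i, (Pi.single i 1 : ι → ℤ) ∈ H := by
    intro i
    change 2 ∣ qf B (Pi.single i 1)
    have : qf B (Pi.single i 1) = B i i := by
      simp [qf]
    rw [this]
    exact hBe i
  have hz : z = ∑ i, z i • (Pi.single i 1 : ι → ℤ) := by
    ext j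
    simp [Finset.sum_apply, Pi.single_apply]
  have : z ∈ H := by
    rw [hz]
    exact H.sum_mem fun i _ => H.zsmul_mem (hsingle i) _
  exact this

/-- half of the quadratic form. -/
def hf (B : Matrix ι ι ℤ) (z : ι → ℤ) : ℤ := qf B z / 2

lemma two_mul_hf (hB : B.IsSymm) (hBe : ∀ i, 2 ∣ B i i) (z : ι → ℤ) :
    2 * hf B z = qf B z :=
  Int.mul_ediv_cancel' (two_dvd_qf hB hBe z)

lemma hf_add (hB : B.IsSymm) (hBe : ∀ i, 2 ∣ B i i) (y z : ι → ℤ) :
    hf B (y + z) = hf B y + hf B z + bf B y z := by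
  have h1 := two_mul_hf hB hBe (y + z)
  have h2 := two_mul_hf hB hBe y
  have h3 := two_mul_hf hB hBe z
  have h4 := qf_add hB y z
  linarith

omit [DecidableEq ι] in
lemma hf_neg (B : Matrix ι ι ℤ) (z : ι → ℤ) : hf B (-z) = hf B z := by
  unfold hf; rw [qf_neg]

omit [DecidableEq ι] in
lemma hf_zero (B : Matrix ι ι ℤ) : hf B 0 = 0 := by
  unfold hf; rw [qf_zero]; rfl

lemma hf_mulVec {p : ℤ} (hA : A.IsSymm) (hAe : ∀ i, 2 ∣ A i i) (hB : B.IsSymm)
    (hBe : ∀ i, 2 ∣ B i i) (hAB : A * B = p • (1 : Matrix ι ι ℤ)) (x : ι → ℤ) :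
    hf B (A *ᵥ x) = p * hf A x := by
  have h1 := two_mul_hf hB hBe (A *ᵥ x)
  have h2 := two_mul_hf hA hAe x
  have h3 := qf_mulVec hA hAB x
  have : 2 * hf B (A *ᵥ x) = 2 * (p * hf A x) := by
    rw [h1, h3, ← h2]; ring
  linarith

end Alg

section Disc

variable {ι : Type*} [Fintype ι] [DecidableEq ι]

/-- the lattice `A ℤ^ι ⊆ ℤ^ι`. -/
def lat (A : Matrix ι ι ℤ) : Submodule ℤ (ι → ℤ) := LinearMap.range A.mulVecLin

omit [DecidableEq ι] in
lemma mem_lat {A : Matrix ι ι ℤ} {z : ι → ℤ} : z ∈ lat A ↔ ∃ x, A *ᵥ x = z := by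
  simp [lat, LinearMap.mem_range]

/-- the discriminant group `ℤ^ι / A ℤ^ι`. -/
abbrev Disc (A : Matrix ι ι ℤ) : Type _ := (ι → ℤ) ⧸ lat A

/-- the class of `z` in the discriminant group. -/
abbrev cls (A : Matrix ι ι ℤ) (z : ι → ℤ) : Disc A := Submodule.Quotient.mk z

lemma cls_eq_iff {A : Matrix ι ι ℤ} {y z : ι → ℤ} :
    cls A y = cls A z ↔ ∃ x, y = A *ᵥ x + z := by
  rw [Submodule.Quotient.eq, mem_lat]
  constructor
  · rintro ⟨x, hx⟩
    exact ⟨x, by rw [hx]; abel⟩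
  · rintro ⟨x, hx⟩
    exact ⟨x, by rw [hx]; abel⟩

omit [DecidableEq ι] in
lemma cls_surjective (A : Matrix ι ι ℤ) : Function.Surjective (cls A) :=
  Submodule.Quotient.mk_surjective _

variable {A B : Matrix ι ι ℤ} {p : ℕ}

lemma mul_comm_of_symm (hA : A.IsSymm) (hB : B.IsSymm)
    (hAB : A * B = (p : ℤ) • (1 : Matrix ι ι ℤ)) : B * A = (p : ℤ) • (1 : Matrix ι ι ℤ) := by
  have := congrArg Matrix.transpose hAB
  rwa [transpose_mul, hA.eq, hB.eq, transpose_smul, transpose_one] at this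

lemma mulVec_injective_of (hA : A.IsSymm) (hB : B.IsSymm)
    (hAB : A * B = (p : ℤ) • (1 : Matrix ι ι ℤ)) (hp : p ≠ 0) :
    Function.Injective A.mulVec := by
  intro x y hxy
  have h := congrArg (fun v => B *ᵥ v) hxy
  simp only [mulVec_mulVec, mul_comm_of_symm hA hB hAB, smul_mulVec, one_mulVec] at h
  exact smul_right_injective _ (Int.natCast_ne_zero.2 hp) h

lemma smul_mem_lat (hAB : A * B = (p : ℤ) • (1 : Matrix ι ι ℤ)) (z : ι → ℤ) :
    (p : ℤ) • z ∈ lat A :=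
  mem_lat.2 ⟨B *ᵥ z, by rw [mulVec_mulVec, hAB, smul_mulVec, one_mulVec]⟩

lemma det_ne_zero_of (hAB : A * B = (p : ℤ) • (1 : Matrix ι ι ℤ)) (hp : p ≠ 0) :
    A.det ≠ 0 := by
  intro h
  have := congrArg Matrix.det hAB
  rw [det_mul, h, zero_mul, det_smul, det_one, mul_one] at this
  exact pow_ne_zero _ (Int.natCast_ne_zero.2 hp) this.symm

/-- the discriminant group has `|det A|` elements. -/
lemma card_disc (hA : A.IsSymm) (hB : B.IsSymm)
    (hAB : A * B = (p : ℤ) • (1 : Matrix ι ι ℤ)) (hp : p ≠ 0) :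
    Nat.card (Disc A) = A.det.natAbs := by
  have hinj : Function.Injective A.mulVecLin := mulVec_injective_of hA hB hAB hp
  let e : (ι → ℤ) ≃ₗ[ℤ] lat A := LinearEquiv.ofInjective A.mulVecLin hinj
  have h := Submodule.natAbs_det_equiv (lat A) e.toAddEquiv
  rw [← h]
  congr 1
  have : (lat A).subtype ∘ₗ AddMonoidHom.toIntLinearMap ((e.toAddEquiv : (ι → ℤ) ≃+ lat A) :
      (ι → ℤ) →+ lat A) = Matrix.toLin' A := by
    ext x i
    rfl
  rw [this, LinearMap.det_toLin']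

lemma finite_disc (hA : A.IsSymm) (hB : B.IsSymm)
    (hAB : A * B = (p : ℤ) • (1 : Matrix ι ι ℤ)) (hp : p ≠ 0) : Finite (Disc A) := by
  apply Nat.finite_of_card_ne_zero
  rw [card_disc hA hB hAB hp]
  exact Int.natAbs_ne_zero.2 (det_ne_zero_of hAB hp)

/-- the `ZMod p`-valued quadratic form on the discriminant group: `[z] ↦ zᵀ B z / 2 mod p`. -/
noncomputable def discQ (A B : Matrix ι ι ℤ) (p : ℕ) (c : Disc A) : ZMod p :=
  ((hf B (Quotient.out c) : ℤ) : ZMod p)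

/-- the `ZMod p`-valued bilinear form on the discriminant group: `[y],[z] ↦ yᵀ B z mod p`. -/
noncomputable def discB (A B : Matrix ι ι ℤ) (p : ℕ) (c c' : Disc A) : ZMod p :=
  ((bf B (Quotient.out c) (Quotient.out c') : ℤ) : ZMod p)

lemma exists_out (A : Matrix ι ι ℤ) (z : ι → ℤ) :
    ∃ x, (Quotient.out (cls A z) : ι → ℤ) = A *ᵥ x + z := by
  apply cls_eq_iff.1
  exact Quotient.out_eq _

lemma bf_cast_congr (hA : A.IsSymm) (hB : B.IsSymm)
    (hAB : A * B = (p : ℤ) • (1 : Matrix ι ι ℤ)) (x x' y z : ι → ℤ) :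
    ((bf B (A *ᵥ x + y) (A *ᵥ x' + z) : ℤ) : ZMod p) = ((bf B y z : ℤ) : ZMod p) := by
  rw [bf_add_left, bf_add_right, bf_add_right, bf_mulVec_left hA hAB, bf_mulVec_left hA hAB,
    bf_mulVec_right hA hB hAB]
  push_cast
  simp

lemma hf_cast_congr (hA : A.IsSymm) (hAe : ∀ i, 2 ∣ A i i) (hB : B.IsSymm)
    (hBe : ∀ i, 2 ∣ B i i) (hAB : A * B = (p : ℤ) • (1 : Matrix ι ι ℤ)) (x z : ι → ℤ) :
    ((hf B (A *ᵥ x + z) : ℤ) : ZMod p) = ((hf B z : ℤ) : ZMod p) := by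
  rw [hf_add hB hBe, hf_mulVec hA hAe hB hBe hAB, bf_mulVec_left hA hAB]
  push_cast
  simp

lemma discB_cls (hA : A.IsSymm) (hB : B.IsSymm)
    (hAB : A * B = (p : ℤ) • (1 : Matrix ι ι ℤ)) (y z : ι → ℤ) :
    discB A B p (cls A y) (cls A z) = ((bf B y z : ℤ) : ZMod p) := by
  obtain ⟨x, hx⟩ := exists_out A y
  obtain ⟨x', hx'⟩ := exists_out A z
  unfold discB
  rw [hx, hx', bf_cast_congr hA hB hAB]

lemma discQ_cls (hA : A.IsSymm) (hAe : ∀ i, 2 ∣ A i i) (hB : B.IsSymm)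
    (hBe : ∀ i, 2 ∣ B i i) (hAB : A * B = (p : ℤ) • (1 : Matrix ι ι ℤ)) (z : ι → ℤ) :
    discQ A B p (cls A z) = ((hf B z : ℤ) : ZMod p) := by
  obtain ⟨x, hx⟩ := exists_out A z
  unfold discQ
  rw [hx, hf_cast_congr hA hAe hB hBe hAB]

lemma discB_add_left (hA : A.IsSymm) (hB : B.IsSymm)
    (hAB : A * B = (p : ℤ) • (1 : Matrix ι ι ℤ)) (c₁ c₂ c' : Disc A) :
    discB A B p (c₁ + c₂) c' = discB A B p c₁ c' + discB A B p c₂ c' := by
  obtain ⟨y₁, rfl⟩ := cls_surjective A c₁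
  obtain ⟨y₂, rfl⟩ := cls_surjective A c₂
  obtain ⟨z, rfl⟩ := cls_surjective A c'
  have : cls A y₁ + cls A y₂ = cls A (y₁ + y₂) := rfl
  rw [this, discB_cls hA hB hAB, discB_cls hA hB hAB, discB_cls hA hB hAB, bf_add_left]
  push_cast
  rfl

lemma discB_comm (hA : A.IsSymm) (hB : B.IsSymm)
    (hAB : A * B = (p : ℤ) • (1 : Matrix ι ι ℤ)) (c c' : Disc A) :
    discB A B p c c' = discB A B p c' c := by
  obtain ⟨y, rfl⟩ := cls_surjective A c
  obtain ⟨z, rfl⟩ := cls_surjective A c'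
  rw [discB_cls hA hB hAB, discB_cls hA hB hAB, bf_comm hB]

lemma discB_add_right (hA : A.IsSymm) (hB : B.IsSymm)
    (hAB : A * B = (p : ℤ) • (1 : Matrix ι ι ℤ)) (c c₁ c₂ : Disc A) :
    discB A B p c (c₁ + c₂) = discB A B p c c₁ + discB A B p c c₂ := by
  rw [discB_comm hA hB hAB, discB_add_left hA hB hAB, discB_comm hA hB hAB c₁,
    discB_comm hA hB hAB c₂]

lemma discB_zero_left (hA : A.IsSymm) (hB : B.IsSymm)
    (hAB : A * B = (p : ℤ) • (1 : Matrix ι ι ℤ)) (c : Disc A) :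
    discB A B p 0 c = 0 := by
  have := discB_add_left hA hB hAB 0 0 c
  rw [add_zero] at this
  exact left_eq_add.1 this

lemma discB_zero_right (hA : A.IsSymm) (hB : B.IsSymm)
    (hAB : A * B = (p : ℤ) • (1 : Matrix ι ι ℤ)) (c : Disc A) :
    discB A B p c 0 = 0 := by
  rw [discB_comm hA hB hAB, discB_zero_left hA hB hAB]

lemma discQ_add (hA : A.IsSymm) (hAe : ∀ i, 2 ∣ A i i) (hB : B.IsSymm)
    (hBe : ∀ i, 2 ∣ B i i) (hAB : A * B = (p : ℤ) • (1 : Matrix ι ι ℤ)) (c c' : Disc A) :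
    discQ A B p (c + c') = discQ A B p c + discQ A B p c' + discB A B p c c' := by
  obtain ⟨y, rfl⟩ := cls_surjective A c
  obtain ⟨z, rfl⟩ := cls_surjective A c'
  have : cls A y + cls A z = cls A (y + z) := rfl
  rw [this, discQ_cls hA hAe hB hBe hAB, discQ_cls hA hAe hB hBe hAB,
    discQ_cls hA hAe hB hBe hAB, discB_cls hA hB hAB, hf_add hB hBe]
  push_cast
  rfl

lemma discQ_neg (hA : A.IsSymm) (hAe : ∀ i, 2 ∣ A i i) (hB : B.IsSymm)
    (hBe : ∀ i, 2 ∣ B i i) (hAB : A * B = (p : ℤ) • (1 : Matrix ι ι ℤ)) (c : Disc A) :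
    discQ A B p (-c) = discQ A B p c := by
  obtain ⟨y, rfl⟩ := cls_surjective A c
  have : - cls A y = cls A (-y) := rfl
  rw [this, discQ_cls hA hAe hB hBe hAB, discQ_cls hA hAe hB hBe hAB, hf_neg]

lemma discQ_zero (hA : A.IsSymm) (hAe : ∀ i, 2 ∣ A i i) (hB : B.IsSymm)
    (hBe : ∀ i, 2 ∣ B i i) (hAB : A * B = (p : ℤ) • (1 : Matrix ι ι ℤ)) :
    discQ A B p (0 : Disc A) = 0 := by
  have : (0 : Disc A) = cls A 0 := rfl
  rw [this, discQ_cls hA hAe hB hBe hAB, hf_zero]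
  simp

lemma discB_self (hA : A.IsSymm) (hAe : ∀ i, 2 ∣ A i i) (hB : B.IsSymm)
    (hBe : ∀ i, 2 ∣ B i i) (hAB : A * B = (p : ℤ) • (1 : Matrix ι ι ℤ)) (c : Disc A) :
    discB A B p c c = 2 * discQ A B p c := by
  obtain ⟨y, rfl⟩ := cls_surjective A c
  rw [discQ_cls hA hAe hB hBe hAB, discB_cls hA hB hAB, ← qf_eq_bf, ← two_mul_hf hB hBe]
  push_cast
  rfl

/-- the bilinear form on the discriminant group is nondegenerate. -/
lemma discB_nondeg (hA : A.IsSymm) (hB : B.IsSymm)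
    (hAB : A * B = (p : ℤ) • (1 : Matrix ι ι ℤ)) (hp : p ≠ 0) (c : Disc A)
    (h : ∀ c', discB A B p c c' = 0) : c = 0 := by
  obtain ⟨y, rfl⟩ := cls_surjective A c
  -- `B y ≡ 0 mod p`
  have h1 : ∀ i, (p : ℤ) ∣ (B *ᵥ y) i := by
    intro i
    have := h (cls A (Pi.single i 1))
    rw [discB_cls hA hB hAB, bf_comm hB] at this
    have h2 : bf B (Pi.single i 1) y = (B *ᵥ y) i := by
      simp [bf]
    rw [h2] at this
    exact (ZMod.intCast_zmod_eq_zero_iff_dvd _ _).1 this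
  choose w hw using h1
  have h3 : B *ᵥ y = (p : ℤ) • w := by
    ext i
    rw [hw i]; rfl
  have h4 : (p : ℤ) • y = (p : ℤ) • (A *ᵥ w) := by
    have := congrArg (fun v => A *ᵥ v) h3
    simp only [mulVec_mulVec, hAB, smul_mulVec, one_mulVec, mulVec_smul] at this
    exact this
  have h5 : y = A *ᵥ w := smul_right_injective _ (Int.natCast_ne_zero.2 hp) h4
  rw [Submodule.Quotient.mk_eq_zero, mem_lat]
  exact ⟨w, h5.symm⟩

end Disc

end Fermat.Agent.S16.H67
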