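import Fermat.Agent.S16.H67.ThetaBridge
import Fermat.Agent.S16.H436.ThetaQExp

/-!
# S16 / TH (helper67): analytic properties of the class theta functions

`A B : Matrix ι ι ℤ` symmetric, `A * B = p • 1`, `A` positive definite.
* `isSymm_of_mul_eq`, `posDef_of_mul_eq` : `B` is symmetric and positive definite.
* `summable_thetaTerm` : the theta series converges on the upper half plane.
* `differentiableOn_Theta`, `norm_Theta_le`, `Theta_zero_I_ne_zero`.
-/

set_option linter.unusedSectionVars false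

namespace Fermat.Agent.S16.H67

open Matrix Complex

variable {ι : Type*} [Fintype ι] [DecidableEq ι] {A B : Matrix ι ι ℤ} {p : ℕ}

/-- `B = p A⁻¹` is symmetric if `A` is. -/
lemma isSymm_of_mul_eq (hA : A.IsSymm) (hAB : A * B = (p : ℤ) • (1 : Matrix ι ι ℤ))
    (hp : p ≠ 0) : B.IsSymm := by
  have hp' : (p : ℤ) ≠ 0 := Int.natCast_ne_zero.2 hp
  -- `det A • B = p • adjugate A`
  have h1 : A.det • B = (p : ℤ) • A.adjugate := by
    have := congrArg (fun M => A.adjugate * M) hAB
    simp only [← Matrix.mul_assoc, adjugate_mul, Matrix.smul_mul, Matrix.one_mul,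
      Matrix.mul_smul, Matrix.mul_one] at this
    exact this
  have h2 : A.det • Bᵀ = (p : ℤ) • A.adjugate := by
    have := congrArg Matrix.transpose h1
    rw [transpose_smul, transpose_smul, adjugate_transpose, hA.eq] at this
    exact this
  have hdet : A.det ≠ 0 := det_ne_zero_of hAB hp
  have h3 : A.det • Bᵀ = A.det • B := by rw [h1, h2]
  exact smul_right_injective _ hdet h3

omit [DecidableEq ι] in
lemma cast_mulVec (M : Matrix ι ι ℤ) (x : ι → ℤ) :
    (M.map (Int.cast : ℤ → ℝ)) *ᵥ (fun i => (x i : ℝ)) = fun i => ((M *ᵥ x) i : ℝ) := by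
  ext i
  simp [mulVec, dotProduct]

/-- `B = p A⁻¹` is positive definite if `A` is. -/
lemma posDef_of_mul_eq (hA : A.IsSymm) (hpos : (A.map (Int.cast : ℤ → ℝ)).PosDef)
    (hAB : A * B = (p : ℤ) • (1 : Matrix ι ι ℤ)) (hp : p ≠ 0) :
    (B.map (Int.cast : ℤ → ℝ)).PosDef := by
  have hB : B.IsSymm := isSymm_of_mul_eq hA hAB hp
  have hpR : (0 : ℝ) < p := Nat.cast_pos.2 (Nat.pos_of_ne_zero hp)
  set AR : Matrix ι ι ℝ := A.map (Int.cast : ℤ → ℝ) with hAR
  set BR : Matrix ι ι ℝ := B.map (Int.cast : ℤ → ℝ) with hBR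
  have hABR : AR * BR = (p : ℝ) • (1 : Matrix ι ι ℝ) := by
    have h := congrArg (Int.castRingHom ℝ).mapMatrix hAB
    rw [map_mul] at h
    have h' : (Int.castRingHom ℝ).mapMatrix ((p : ℤ) • (1 : Matrix ι ι ℤ))
        = (p : ℝ) • (1 : Matrix ι ι ℝ) := by
      ext i j
      rw [RingHom.mapMatrix_apply, Matrix.map_apply, Matrix.smul_apply, Matrix.smul_apply,
        Matrix.one_apply, Matrix.one_apply]
      split_ifs <;> simp
    rw [h'] at h
    exact h
  have hBRsymm : BRᵀ = BR := by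
    rw [hBR, ← Matrix.transpose_map, hB.eq]
  refine Matrix.PosDef.of_dotProduct_mulVec_pos ?_ ?_
  · rw [Matrix.IsHermitian, Matrix.conjTranspose_eq_transpose_of_trivial]
    exact hBRsymm
  · intro x hx
    rw [star_trivial]
    -- `(B x)ᵀ A (B x) = p xᵀ B x`
    have hBx : BR *ᵥ x ≠ 0 := by
      intro h0
      have : AR *ᵥ (BR *ᵥ x) = 0 := by rw [h0, mulVec_zero]
      rw [mulVec_mulVec, hABR, smul_mulVec, one_mulVec] at this
      exact hx ((smul_eq_zero.1 this).resolve_left hpR.ne')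
    have h1 := hpos.dotProduct_mulVec_pos hBx
    rw [star_trivial] at h1
    have h2 : (BR *ᵥ x) ⬝ᵥ (AR *ᵥ (BR *ᵥ x)) = (p : ℝ) * (x ⬝ᵥ (BR *ᵥ x)) := by
      rw [mulVec_mulVec, hABR, smul_mulVec, one_mulVec, dotProduct_smul, smul_eq_mul]
      congr 1
      exact dotProduct_comm _ _
    rw [h2] at h1
    exact (mul_pos_iff_of_pos_left hpR).1 h1

omit [DecidableEq ι] in
lemma norm_thetaTerm (B : Matrix ι ι ℤ) (p : ℕ) (τ : ℂ) (z : ι → ℤ) :
    ‖thetaTerm B p τ z‖ = Real.exp (-(Real.pi * τ.im / p) * (qf B z : ℝ)) := by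
  unfold thetaTerm
  rw [Complex.norm_exp]
  congr 1
  have : (Real.pi * I * τ * (qf B z : ℂ) / (p : ℂ)) =
      ((Real.pi * (qf B z : ℝ) / (p : ℝ) : ℝ) : ℂ) * (I * τ) := by
    push_cast; ring
  rw [this, Complex.re_ofReal_mul]
  simp only [Complex.mul_re, Complex.I_re, Complex.I_im, zero_mul, one_mul, zero_sub]
  ring

omit [DecidableEq ι] in
lemma qf_nonneg_of (hpos : (B.map (Int.cast : ℤ → ℝ)).PosDef) (z : ι → ℤ) : 0 ≤ qf B z :=
  H436.qf_nonneg hpos z

/-- the theta series converges for `0 < im τ`. -/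
lemma summable_thetaTerm (hpos : (B.map (Int.cast : ℤ → ℝ)).PosDef) (hp : p ≠ 0)
    {τ : ℂ} (hτ : 0 < τ.im) : Summable (thetaTerm B p τ) := by
  apply Summable.of_norm
  simp only [norm_thetaTerm]
  have hpR : (0 : ℝ) < p := Nat.cast_pos.2 (Nat.pos_of_ne_zero hp)
  exact H436.summable_exp_neg_qf hpos (a := Real.pi * τ.im / p) (by positivity)

/-- uniform bound of the terms on `δ ≤ im τ`. -/
lemma norm_thetaTerm_le (hpos : (B.map (Int.cast : ℤ → ℝ)).PosDef) (hp : p ≠ 0)
    {δ : ℝ} {τ : ℂ} (hτ : δ ≤ τ.im) (z : ι → ℤ) :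
    ‖thetaTerm B p τ z‖ ≤ Real.exp (-(Real.pi * δ / p) * (qf B z : ℝ)) := by
  rw [norm_thetaTerm]
  apply Real.exp_le_exp.2
  have hpR : (0 : ℝ) < p := Nat.cast_pos.2 (Nat.pos_of_ne_zero hp)
  have hq : (0 : ℝ) ≤ (qf B z : ℝ) := by exact_mod_cast qf_nonneg_of hpos z
  have h1 : Real.pi * δ / p ≤ Real.pi * τ.im / p := by
    apply div_le_div_of_nonneg_right _ hpR.le
    exact mul_le_mul_of_nonneg_left hτ Real.pi_pos.le
  nlinarith

omit [DecidableEq ι] in
lemma differentiable_thetaTerm (B : Matrix ι ι ℤ) (p : ℕ) (z : ι → ℤ) :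
    Differentiable ℂ (fun τ : ℂ => thetaTerm B p τ z) := by
  unfold thetaTerm
  fun_prop

/-- `τ ↦ Θ_c(τ)` is holomorphic on the upper half plane. -/
theorem differentiableOn_Theta (hpos : (B.map (Int.cast : ℤ → ℝ)).PosDef) (hp : p ≠ 0)
    (c : Disc A) : DifferentiableOn ℂ (fun τ : ℂ => Theta A B p c τ) {τ : ℂ | 0 < τ.im} := by
  intro τ₀ hτ₀
  have hτ₀' : 0 < τ₀.im := hτ₀
  set δ : ℝ := τ₀.im / 2 with hδ
  have hδpos : 0 < δ := by positivity
  have hpR : (0 : ℝ) < p := Nat.cast_pos.2 (Nat.pos_of_ne_zero hp)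
  set U : Set ℂ := {τ : ℂ | δ < τ.im} with hU
  have hUopen : IsOpen U := isOpen_lt continuous_const Complex.continuous_im
  have hmem : τ₀ ∈ U := by
    show δ < τ₀.im
    rw [hδ]; linarith
  have hdiff : DifferentiableOn ℂ (fun τ : ℂ => Theta A B p c τ) U := by
    unfold Theta
    refine differentiableOn_tsum_of_summable_norm
      (u := fun z : ι → ℤ => Real.exp (-(Real.pi * δ / p) * (qf B z : ℝ)))
      (H436.summable_exp_neg_qf hpos (a := Real.pi * δ / p) (by positivity)) ?_ hUopen ?_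
    · intro z
      by_cases hz : z ∈ {z | cls A z = c}
      · simp only [Set.indicator_of_mem hz]
        exact (differentiable_thetaTerm B p z).differentiableOn
      · simp only [Set.indicator_of_notMem hz]
        exact differentiableOn_const _
    · intro z w hw
      by_cases hz : z ∈ {z | cls A z = c}
      · rw [Set.indicator_of_mem hz]
        exact norm_thetaTerm_le hpos hp (le_of_lt hw) z
      · rw [Set.indicator_of_notMem hz, norm_zero]
        exact (Real.exp_pos _).le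
  exact ((hdiff τ₀ hmem).differentiableAt (hUopen.mem_nhds hmem)).differentiableWithinAt

/-- `Θ_c` is bounded on `1 ≤ im τ`. -/
theorem norm_Theta_le (hpos : (B.map (Int.cast : ℤ → ℝ)).PosDef) (hp : p ≠ 0)
    (c : Disc A) {τ : ℂ} (hτ : 1 ≤ τ.im) :
    ‖Theta A B p c τ‖ ≤ ∑' z : ι → ℤ, Real.exp (-(Real.pi * 1 / p) * (qf B z : ℝ)) := by
  have hpR : (0 : ℝ) < p := Nat.cast_pos.2 (Nat.pos_of_ne_zero hp)
  have hsum := H436.summable_exp_neg_qf hpos (a := Real.pi * 1 / p) (by positivity)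
  have hle : ∀ z : ι → ℤ, ‖Set.indicator {z | cls A z = c} (thetaTerm B p τ) z‖ ≤
      Real.exp (-(Real.pi * 1 / p) * (qf B z : ℝ)) := by
    intro z
    by_cases hz : z ∈ {z | cls A z = c}
    · rw [Set.indicator_of_mem hz]
      exact norm_thetaTerm_le hpos hp hτ z
    · rw [Set.indicator_of_notMem hz, norm_zero]
      exact (Real.exp_pos _).le
  unfold Theta
  exact tsum_of_norm_bounded hsum.hasSum hle

/-- `Θ_0(i) ≠ 0`. -/
theorem Theta_zero_I_ne_zero (hpos : (B.map (Int.cast : ℤ → ℝ)).PosDef) (hp : p ≠ 0) :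
    Theta A B p (0 : Disc A) Complex.I ≠ 0 := by
  have hpR : (0 : ℝ) < p := Nat.cast_pos.2 (Nat.pos_of_ne_zero hp)
  have hI : (0 : ℝ) < Complex.I.im := by simp
  have hs : Summable (Set.indicator {z | cls A z = (0 : Disc A)} (thetaTerm B p Complex.I)) :=
    (summable_thetaTerm hpos hp hI).indicator _
  -- every term is a nonnegative real number
  have hterm : ∀ z : ι → ℤ, thetaTerm B p Complex.I z =
      ((Real.exp (-(Real.pi / p) * (qf B z : ℝ)) : ℝ) : ℂ) := by
    intro z
    unfold thetaTerm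
    rw [Complex.ofReal_exp]
    congr 1
    push_cast
    have : (Real.pi : ℂ) * I * I * (qf B z : ℂ) / (p : ℂ)
        = (Real.pi : ℂ) * (I * I) * (qf B z : ℂ) / (p : ℂ) := by ring
    rw [this, Complex.I_mul_I]
    ring
  have hre : (Theta A B p (0 : Disc A) Complex.I).re =
      ∑' z : ι → ℤ, (Set.indicator {z | cls A z = (0 : Disc A)}
        (thetaTerm B p Complex.I) z).re := by
    unfold Theta
    exact Complex.re_tsum hs
  have hsre : Summable (fun z : ι → ℤ => (Set.indicator {z | cls A z = (0 : Disc A)}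
        (thetaTerm B p Complex.I) z).re) := (Complex.hasSum_re hs.hasSum).summable
  have hnonneg : ∀ z : ι → ℤ, 0 ≤ (Set.indicator {z | cls A z = (0 : Disc A)}
        (thetaTerm B p Complex.I) z).re := by
    intro z
    by_cases hz : z ∈ {z | cls A z = (0 : Disc A)}
    · rw [Set.indicator_of_mem hz, hterm, Complex.ofReal_re]
      exact (Real.exp_pos _).le
    · rw [Set.indicator_of_notMem hz, Complex.zero_re]
  have h0 : (Set.indicator {z | cls A z = (0 : Disc A)}
        (thetaTerm B p Complex.I) (0 : ι → ℤ)).re = 1 := by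
    have hz : (0 : ι → ℤ) ∈ {z | cls A z = (0 : Disc A)} := rfl
    rw [Set.indicator_of_mem hz, hterm, Complex.ofReal_re, qf_zero]
    simp
  have hge : (1 : ℝ) ≤ (Theta A B p (0 : Disc A) Complex.I).re := by
    rw [hre, ← h0]
    exact hsre.le_tsum (0 : ι → ℤ) (fun z _ => hnonneg z)
  intro h
  rw [h, Complex.zero_re] at hge
  linarith

end Fermat.Agent.S16.H67
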