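import Fermat.Agent.S16.H67.DiscForm

/-!
# S16 / BRIDGE (helper67): theta functions of the classes of the discriminant group

For `A B : Matrix ι ι ℤ` symmetric, even, `A * B = p • 1`, and `c ∈ Disc A = ℤ^ι / A ℤ^ι`,
`Theta A B p c τ = ∑_{z ∈ c} exp(π i τ zᵀBz / p)` (`= ∑_x exp(π i τ (x+h)ᵀ A (x+h))`, `h = A⁻¹ z₀`).

* `Theta_add_one` : (T)  `Θ_c(τ+1) = ψ(Q c) Θ_c(τ)`
* `Theta_inv`     : (S)  `Θ_c(-1/τ) = κ(τ) ∑_{c'} ψ(B(c,c')) Θ_{c'}(τ)` from the generic theta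
  inversion formula (explicit hypothesis `hInv`) and summability.
-/

namespace Fermat.Agent.S16.H67

open Matrix Complex

variable {ι : Type*} [Fintype ι]

/-- the general term `exp(π i τ zᵀBz / p)` of the theta series. -/
noncomputable def thetaTerm (B : Matrix ι ι ℤ) (p : ℕ) (τ : ℂ) (z : ι → ℤ) : ℂ :=
  cexp (Real.pi * I * τ * (qf B z : ℂ) / p)

/-- the theta function of the class `c` of the discriminant group. -/
noncomputable def Theta (A B : Matrix ι ι ℤ) (p : ℕ) (c : Disc A) (τ : ℂ) : ℂ :=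
  ∑' z : ι → ℤ, Set.indicator {z | cls A z = c} (thetaTerm B p τ) z

variable [DecidableEq ι] {A B : Matrix ι ι ℤ} {p : ℕ}

lemma thetaTerm_add_one [NeZero p] (hB : B.IsSymm) (hBe : ∀ i, 2 ∣ B i i) (τ : ℂ) (z : ι → ℤ) :
    thetaTerm B p (τ + 1) z =
      ZMod.stdAddChar (((hf B z : ℤ) : ZMod p)) * thetaTerm B p τ z := by
  unfold thetaTerm
  rw [ZMod.stdAddChar_coe, ← Complex.exp_add]
  congr 1
  have h := two_mul_hf hB hBe z
  have h' : (qf B z : ℂ) = 2 * (hf B z : ℂ) := by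
    rw [← h]; push_cast; ring
  rw [h']
  ring

/-- **(T)**: `Θ_c(τ + 1) = ψ(Q(c)) Θ_c(τ)`. -/
theorem Theta_add_one [NeZero p] (hA : A.IsSymm) (hAe : ∀ i, 2 ∣ A i i) (hB : B.IsSymm)
    (hBe : ∀ i, 2 ∣ B i i) (hAB : A * B = (p : ℤ) • (1 : Matrix ι ι ℤ))
    (c : Disc A) (τ : ℂ) :
    Theta A B p c (τ + 1) = ZMod.stdAddChar (discQ A B p c) * Theta A B p c τ := by
  unfold Theta
  rw [← tsum_mul_left]
  congr 1
  ext z
  by_cases h : cls A z = c
  · rw [Set.indicator_of_mem (by exact h), Set.indicator_of_mem (by exact h),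
      thetaTerm_add_one hB hBe, ← h, discQ_cls hA hAe hB hBe hAB]
  · rw [Set.indicator_of_notMem (by exact h), Set.indicator_of_notMem (by exact h), mul_zero]

/-- the theta function of a class as a sum over the lattice. -/
lemma Theta_cls_eq_tsum (hA : A.IsSymm) (hB : B.IsSymm)
    (hAB : A * B = (p : ℤ) • (1 : Matrix ι ι ℤ)) (hp : p ≠ 0) (y₀ : ι → ℤ) (τ : ℂ) :
    Theta A B p (cls A y₀) τ = ∑' x : ι → ℤ, thetaTerm B p τ (A *ᵥ x + y₀) := by
  unfold Theta
  have hinj : Function.Injective (fun x : ι → ℤ => A *ᵥ x + y₀) := by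
    intro x x' h
    exact mulVec_injective_of hA hB hAB hp (add_right_cancel h)
  have hsupp : Function.support (Set.indicator {z | cls A z = cls A y₀} (thetaTerm B p τ))
      ⊆ Set.range (fun x : ι → ℤ => A *ᵥ x + y₀) := by
    intro z hz
    have hz' : z ∈ {z | cls A z = cls A y₀} := by
      by_contra hcon
      exact hz (Set.indicator_of_notMem hcon _)
    obtain ⟨x, hx⟩ := cls_eq_iff.1 (show cls A z = cls A y₀ from hz')
    exact ⟨x, hx.symm⟩
  rw [← hinj.tsum_eq hsupp]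
  congr 1
  ext x
  have : A *ᵥ x + y₀ ∈ {z | cls A z = cls A y₀} := by
    show cls A (A *ᵥ x + y₀) = cls A y₀
    exact cls_eq_iff.2 ⟨x, rfl⟩
  rw [Set.indicator_of_mem this]

/-- regrouping the full twisted theta series by classes. -/
lemma tsum_twisted_eq_sum [NeZero p] [Fintype (Disc A)] (hA : A.IsSymm) (hB : B.IsSymm)
    (hAB : A * B = (p : ℤ) • (1 : Matrix ι ι ℤ)) (τ : ℂ)
    (hsum : Summable (thetaTerm B p τ)) (y₀ : ι → ℤ) :
    ∑' y : ι → ℤ, thetaTerm B p τ y * cexp (2 * Real.pi * I * (bf B y y₀ : ℂ) / p)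
      = ∑ c' : Disc A, ZMod.stdAddChar (discB A B p (cls A y₀) c') * Theta A B p c' τ := by
  classical
  unfold Theta
  simp_rw [← tsum_mul_left]
  rw [← Summable.tsum_finsetSum]
  · congr 1
    ext y
    rw [Finset.sum_eq_single (cls A y)]
    · rw [Set.indicator_of_mem (by rfl), discB_cls hA hB hAB, ZMod.stdAddChar_coe, bf_comm hB,
        mul_comm]
    · intro c' _ hc'
      rw [Set.indicator_of_notMem (by exact fun h => hc' h.symm), mul_zero]
    · intro h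
      exact absurd (Finset.mem_univ _) h
  · intro c' _
    exact (hsum.indicator _).mul_left _

/-- **(S)**: `Θ_c(-1/τ) = κ(τ) ∑_{c'} ψ(B(c,c')) Θ_{c'}(τ)`, from the generic theta inversion
formula `hInv` (for the lattice `A`, in the normalisation `B = p A⁻¹`). -/
theorem Theta_inv [NeZero p] [Fintype (Disc A)] (hA : A.IsSymm) (hB : B.IsSymm)
    (hAB : A * B = (p : ℤ) • (1 : Matrix ι ι ℤ)) (κ : ℂ → ℂ)
    (hsum : ∀ τ : ℂ, 0 < τ.im → Summable (thetaTerm B p τ))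
    (hInv : ∀ τ : ℂ, 0 < τ.im → ∀ y₀ : ι → ℤ,
      ∑' x : ι → ℤ, thetaTerm B p (-1 / τ) (A *ᵥ x + y₀)
        = κ τ * ∑' y : ι → ℤ, thetaTerm B p τ y * cexp (2 * Real.pi * I * (bf B y y₀ : ℂ) / p))
    (c : Disc A) (τ : ℂ) (hτ : 0 < τ.im) :
    Theta A B p c (-1 / τ)
      = κ τ * ∑ c' : Disc A, ZMod.stdAddChar (discB A B p c c') * Theta A B p c' τ := by
  obtain ⟨y₀, rfl⟩ := cls_surjective A c
  rw [Theta_cls_eq_tsum hA hB hAB (NeZero.ne p), hInv τ hτ y₀,
    tsum_twisted_eq_sum hA hB hAB τ (hsum τ hτ) y₀]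

end Fermat.Agent.S16.H67
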