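import Fermat.Agent.S16.Interface
import Fermat.Agent.S16.H67.ThetaAn
import Fermat.Agent.S16.H487.Weil

/-!
# S16 / WP TH (helper67): `theta_mem_MF` in the exact skeleton shape

From the inversion formula `ThetaInv p A B` for a good lattice `(A, B)` to
`thetaFun A ∈ MF (Gamma0 p) 2`.

Ingredients: the discriminant form and the (T), (S) laws of the class theta functions
(`DiscForm`, `ThetaBridge`), their analytic properties (`ThetaAn`, using helper436's summability),
and helper487's abstract Weil representation lemma (`H487.IsThetaSystem`).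
-/

set_option autoImplicit false
set_option linter.unusedSectionVars false

noncomputable section

namespace Fermat.Agent.S16.H67

open UpperHalfPlane ModularForm CongruenceSubgroup MatrixGroups Matrix
open Fermat.Agent.S20 (MF SF)
open scoped Manifold

variable {p : ℕ} {A B : Matrix (Fin 4) (Fin 4) ℤ}

/-- the class theta function as a function on the upper half plane. -/
def thetaH (A B : Matrix (Fin 4) (Fin 4) ℤ) (p : ℕ) (c : Disc A) : ℍ → ℂ :=
  fun z => Theta A B p c (z : ℂ)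

lemma good_two_dvd_A (hA : IsGoodLattice p A B) : ∀ i, 2 ∣ A i i :=
  fun i => even_iff_two_dvd.1 (hA.even i)

lemma good_two_dvd_B (hA : IsGoodLattice p A B) : ∀ i, 2 ∣ B i i :=
  fun i => even_iff_two_dvd.1 (hA.even' i)

lemma good_symm_B (hA : IsGoodLattice p A B) (hp : p ≠ 0) : B.IsSymm :=
  isSymm_of_mul_eq hA.symm hA.mul_eq hp

lemma good_posDef_B (hA : IsGoodLattice p A B) (hp : p ≠ 0) :
    (B.map (Int.cast : ℤ → ℝ)).PosDef :=
  posDef_of_mul_eq hA.symm hA.posDef hA.mul_eq hp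

/-- the expansion `(Ax + y)ᵀ B (Ax + y) = p xᵀAx + 2 p xᵀy + yᵀBy`. -/
lemma qf_coset (hA : IsGoodLattice p A B) (hp : p ≠ 0) (x y : Fin 4 → ℤ) :
    H67.qf B (A *ᵥ x + y) = (p : ℤ) * H67.qf A x + 2 * ((p : ℤ) * (x ⬝ᵥ y)) + H67.qf B y := by
  rw [qf_add (good_symm_B hA hp), qf_mulVec hA.symm hA.mul_eq, bf_mulVec_left hA.symm hA.mul_eq]
  ring

/-- the skeleton's theta series with characteristic is the class theta function. -/
lemma thetaChar_eq (hA : IsGoodLattice p A B) (hp : p ≠ 0) (y : Fin 4 → ℤ) (z : ℍ) :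
    thetaChar p A B y z = Theta A B p (cls A y) (z : ℂ) := by
  rw [Theta_cls_eq_tsum hA.symm (good_symm_B hA hp) hA.mul_eq hp]
  unfold thetaChar thetaTerm
  congr 1
  ext x
  congr 1
  rw [qf_coset hA hp]
  have hpC : (p : ℂ) ≠ 0 := Nat.cast_ne_zero.2 hp
  have h1 : (Fermat.Agent.S16.qf A x : ℂ) = (H67.qf A x : ℂ) := rfl
  have h2 : (Fermat.Agent.S16.qf B y : ℂ) = (H67.qf B y : ℂ) := rfl
  rw [h1, h2]
  push_cast
  field_simp

lemma thetaFun_eq_thetaChar (A B : Matrix (Fin 4) (Fin 4) ℤ) (p : ℕ) (z : ℍ) :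
    thetaFun A z = thetaChar p A B 0 z := by
  unfold thetaFun thetaChar
  congr 1
  ext x
  congr 1
  have : Fermat.Agent.S16.qf B 0 = 0 := by simp [Fermat.Agent.S16.qf]
  rw [this]
  simp

lemma thetaFun_eq (hA : IsGoodLattice p A B) (hp : p ≠ 0) :
    thetaFun A = thetaH A B p 0 := by
  funext z
  rw [thetaFun_eq_thetaChar A B p z, thetaChar_eq hA hp]
  rfl

/-- the skeleton's inversion hypothesis, in the shape used by `Theta_inv`. -/
lemma hInv_of_thetaInv (hA : IsGoodLattice p A B) (hp : p ≠ 0) (hinv : ThetaInv p A B)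
    (τ : ℂ) (hτ : 0 < τ.im) (y₀ : Fin 4 → ℤ) :
    ∑' x : Fin 4 → ℤ, thetaTerm B p (-1 / τ) (A *ᵥ x + y₀)
      = (-τ ^ 2 / p) * ∑' y : Fin 4 → ℤ, thetaTerm B p τ y *
          Complex.exp (2 * Real.pi * Complex.I * (bf B y y₀ : ℂ) / p) := by
  have h := hinv y₀ ⟨τ, hτ⟩
  rw [thetaChar_eq hA hp, Theta_cls_eq_tsum hA.symm (good_symm_B hA hp) hA.mul_eq hp] at h
  have hS : ((ModularGroup.S • (⟨τ, hτ⟩ : ℍ) : ℍ) : ℂ) = -1 / τ := by
    rw [UpperHalfPlane.modular_S_smul]
    show (-τ)⁻¹ = -1 / τ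
    rw [neg_div, one_div, inv_neg]
  rw [hS] at h
  rw [h]
  show -τ ^ 2 / p * _ = _
  congr 1
  congr 1
  ext w
  unfold thetaTerm
  rw [← Complex.exp_add]
  congr 1
  have h1 : (Fermat.Agent.S16.qf B w : ℂ) = (H67.qf B w : ℂ) := rfl
  have h2 : ((w ⬝ᵥ B.mulVec y₀ : ℤ) : ℂ) = (bf B w y₀ : ℂ) := rfl
  rw [h1, h2]
  show (Real.pi : ℂ) * Complex.I * τ * ((H67.qf B w : ℂ) / p) + _ = _
  ring

lemma slash_T_apply (f : ℍ → ℂ) (z : ℍ) :
    (f ∣[(2 : ℤ)] ModularGroup.T) z = f ((1 : ℝ) +ᵥ z) := by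
  rw [ModularForm.SL_slash_apply, UpperHalfPlane.modular_T_smul]
  have : denom (ModularGroup.T : SL(2, ℤ)) z = 1 := by
    rw [ModularGroup.denom_apply]
    simp [ModularGroup.T]
  rw [this]
  simp

lemma slash_S_apply (f : ℍ → ℂ) (z : ℍ) :
    (f ∣[(2 : ℤ)] ModularGroup.S) z = f (ModularGroup.S • z) * (z : ℂ) ^ (-2 : ℤ) := by
  rw [ModularForm.SL_slash_apply, ModularGroup.denom_S]

/-- The class theta functions of a good lattice form a theta system in the sense of helper487. -/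
theorem isThetaSystem [Fact p.Prime] (hA : IsGoodLattice p A B) (hinv : ThetaInv p A B)
    [Fintype (Disc A)] :
    H487.IsThetaSystem p (ZMod.stdAddChar (N := p)) (discQ A B p) (discB A B p)
      (thetaH A B p) := by
  have hp : p ≠ 0 := (Fact.out : p.Prime).ne_zero
  have : NeZero p := ⟨hp⟩
  have hAs := hA.symm
  have hBs := good_symm_B hA hp
  have hAe := good_two_dvd_A hA
  have hBe := good_two_dvd_B hA
  have hAB := hA.mul_eq
  have hposB := good_posDef_B hA hp
  refine
    { psi_ne_one := ?_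
      card_eq := ?_
      Q_neg := discQ_neg hAs hAe hBs hBe hAB
      Q_add := discQ_add hAs hAe hBs hBe hAB
      B_add_left := discB_add_left hAs hBs hAB
      B_symm := discB_comm hAs hBs hAB
      B_nondeg := ?_
      slash_T := ?_
      slash_S := ?_
      theta_zero_ne := ?_ }
  · -- the standard character is nontrivial
    intro h
    have h1 : ZMod.stdAddChar (N := p) 1 = 1 := by rw [h]; rfl
    have h2 := ZMod.injective_stdAddChar (N := p)
      (h1.trans (AddChar.map_zero_eq_one (ZMod.stdAddChar (N := p))).symm)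
    have hp1 : (1 : ZMod p) ≠ 0 := by
      have : Fact (1 < p) := ⟨(Fact.out : p.Prime).one_lt⟩
      exact one_ne_zero
    exact hp1 h2
  · rw [← Nat.card_eq_fintype_card, card_disc hAs hBs hAB hp, hA.det_eq]
    rw [Int.natAbs_pow, Int.natAbs_natCast]
  · intro j hj
    by_contra hcon
    have hcon' : ∀ k, discB A B p k j = 0 := fun k => by
      by_contra h
      exact hcon ⟨k, h⟩
    apply hj
    apply discB_nondeg hAs hBs hAB hp
    intro c'
    rw [discB_comm hAs hBs hAB]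
    exact hcon' c'
  · intro c
    funext z
    rw [slash_T_apply]
    show Theta A B p c (((1 : ℝ) +ᵥ z : ℍ) : ℂ) = _
    rw [UpperHalfPlane.coe_vadd, Complex.ofReal_one, add_comm,
      Theta_add_one hAs hAe hBs hBe hAB]
    rfl
  · intro c
    funext z
    rw [slash_S_apply]
    have hz : 0 < (z : ℂ).im := z.im_pos
    have hzne : (z : ℂ) ≠ 0 := ne_zero z
    have hS : ((ModularGroup.S • z : ℍ) : ℂ) = -1 / (z : ℂ) := by
      rw [UpperHalfPlane.modular_S_smul]
      show (-(z : ℂ))⁻¹ = -1 / (z : ℂ)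
      rw [neg_div, one_div, inv_neg]
    show Theta A B p c ((ModularGroup.S • z : ℍ) : ℂ) * _ = _
    rw [hS, Theta_inv hAs hBs hAB (fun τ => -τ ^ 2 / p)
      (fun τ hτ => summable_thetaTerm hposB hp hτ)
      (fun τ hτ y₀ => hInv_of_thetaInv hA hp hinv τ hτ y₀) c (z : ℂ) hz]
    have hpC : (p : ℂ) ≠ 0 := Nat.cast_ne_zero.2 hp
    simp only [Pi.smul_apply, Finset.sum_apply, smul_eq_mul]
    have : (-(z : ℂ) ^ 2 / p) * (z : ℂ) ^ (-2 : ℤ) = -(p : ℂ)⁻¹ := by
      rw [_root_.zpow_neg, zpow_ofNat]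
      field_simp
    rw [mul_right_comm, this]
    rfl
  · intro h
    have := congrFun h UpperHalfPlane.I
    exact Theta_zero_I_ne_zero (A := A) hposB hp this

/-- holomorphy of the class theta functions. -/
theorem mdiff_thetaH (hA : IsGoodLattice p A B) (hp : p ≠ 0) (c : Disc A) :
    MDiff (thetaH A B p c) := by
  rw [UpperHalfPlane.mdifferentiable_iff]
  refine (differentiableOn_Theta (A := A) (good_posDef_B hA hp) hp c).congr ?_
  intro w hw
  show thetaH A B p c (ofComplex w) = Theta A B p c w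
  unfold thetaH
  rw [ofComplex_apply_of_im_pos hw]

/-- boundedness at `i∞` of the class theta functions. -/
theorem isBoundedAtImInfty_thetaH (hA : IsGoodLattice p A B) (hp : p ≠ 0) (c : Disc A) :
    IsBoundedAtImInfty (thetaH A B p c) := by
  rw [UpperHalfPlane.isBoundedAtImInfty_iff]
  refine ⟨_, 1, fun z hz => norm_Theta_le (A := A) (good_posDef_B hA hp) hp c ?_⟩
  exact hz

/-- **WP TH (main)**, exact skeleton statement `Skel.theta_mem_MF`. -/
theorem theta_mem_MF (p : ℕ) [Fact p.Prime] (A B : Matrix (Fin 4) (Fin 4) ℤ)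
    (hA : IsGoodLattice p A B)
    (hinv : ∀ (y : Fin 4 → ℤ) (z : ℍ), thetaChar p A B y (ModularGroup.S • z) =
      -(z : ℂ) ^ 2 / p * ∑' w : Fin 4 → ℤ,
        Complex.exp (Real.pi * Complex.I * z * ((Fermat.Agent.S16.qf B w : ℂ) / p) +
          2 * Real.pi * Complex.I * (((w ⬝ᵥ B.mulVec y : ℤ) : ℂ) / p))) :
    thetaFun A ∈ MF (Gamma0 p) 2 := by
  have hp : p ≠ 0 := (Fact.out : p.Prime).ne_zero
  have : Finite (Disc A) := finite_disc hA.symm (good_symm_B hA hp) hA.mul_eq hp
  let _ : Fintype (Disc A) := Fintype.ofFinite _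
  have H := isThetaSystem hA hinv
  rw [thetaFun_eq hA hp, Fermat.Agent.S20.mem_MF]
  refine ⟨mdiff_thetaH hA hp 0, fun γ hγ => H.slash_eq_self hγ, fun γ => ?_⟩
  exact H.isBoundedAtImInfty_translate (fun k => isBoundedAtImInfty_thetaH hA hp k) γ

/-- **WP TH (main)**, with the inversion hypothesis in the packaged form `ThetaInv`. -/
theorem theta_mem_MF_of_thetaInv (p : ℕ) [Fact p.Prime] (A B : Matrix (Fin 4) (Fin 4) ℤ)
    (hA : IsGoodLattice p A B) (hinv : ThetaInv p A B) :
    thetaFun A ∈ MF (Gamma0 p) 2 :=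
  theta_mem_MF p A B hA hinv

/-- the modular form with underlying function `thetaFun A`. -/
theorem exists_modularForm_theta (p : ℕ) [Fact p.Prime] (A B : Matrix (Fin 4) (Fin 4) ℤ)
    (hA : IsGoodLattice p A B) (hinv : ThetaInv p A B) :
    ∃ F : ModularForm ((Gamma0 p : Subgroup SL(2, ℤ)) : Subgroup (GL (Fin 2) ℝ)) 2,
      (F : ℍ → ℂ) = thetaFun A := by
  have hp : p ≠ 0 := (Fact.out : p.Prime).ne_zero
  have : Finite (Disc A) := finite_disc hA.symm (good_symm_B hA hp) hA.mul_eq hp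
  let _ : Fintype (Disc A) := Fintype.ofFinite _
  have H := isThetaSystem hA hinv
  refine ⟨H.toModularForm (fun k => mdiff_thetaH hA hp k)
    (fun k => isBoundedAtImInfty_thetaH hA hp k), ?_⟩
  rw [H.coe_toModularForm, thetaFun_eq hA hp]

end Fermat.Agent.S16.H67
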